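import Mathlib

/-!
# Program V (S27), leaf A5 (norm-surjectivity), part `Seq` : the sequence lemma (prefix `v27n`)

`V27nRec b S` : the "logarithmic derivative" recursion `d · b_d = Σ_{i+j=d} S_i · b_j`
(i.e. `X · B' = S · B` for the generating series).

`v27n_seq_main` : if `(b, S)` and `(b', S')` satisfy the recursion, `b 0 = b' 0 = 1`,
`S 0 = S' 0 = 0`, `S' m = S (n m)` for `m ≥ 1`, and `b` vanishes eventually, then `b'` vanishes
eventually.  (Write `Σ b_d X^d = Π (1 - β_i X)` over `ℂ`; then `S_m = - Σ β_i^m`, and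
`Σ b'_d X^d = Π (1 - β_i^n X)`.)
-/

set_option autoImplicit false

namespace Fermat.Agent.V

open Finset PowerSeries

/-- the recursion `d * b d = ∑_{i + j = d} S i * b j` -/
def V27nRec (b S : ℕ → ℂ) : Prop :=
  ∀ d : ℕ, (d : ℂ) * b d = ∑ p ∈ antidiagonal d, S p.1 * b p.2

/-- the recursion determines `b` from `S` and `b 0` -/
theorem v27n_rec_unique_b {b b' S : ℕ → ℂ} (h : V27nRec b S) (h' : V27nRec b' S) (hS : S 0 = 0)
    (h0 : b 0 = b' 0) : b = b' := by
  funext d
  induction d using Nat.strong_induction_on with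
  | _ d ih =>
    rcases Nat.eq_zero_or_pos d with rfl | hd
    · exact h0
    · have e1 := h d
      have e2 := h' d
      have key : ∑ p ∈ antidiagonal d, S p.1 * b p.2 = ∑ p ∈ antidiagonal d, S p.1 * b' p.2 := by
        apply Finset.sum_congr rfl
        intro p hp
        rw [HasAntidiagonal.mem_antidiagonal] at hp
        rcases Nat.eq_zero_or_pos p.1 with h1 | h1
        · rw [h1, hS, zero_mul, zero_mul]
        · rw [ih p.2 (by omega)]
      rw [key, ← e2] at e1
      have hd0 : (d : ℂ) ≠ 0 := by exact_mod_cast hd.ne'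
      exact mul_left_cancel₀ hd0 e1

/-- the recursion determines `S` from `b` when `b 0 = 1` -/
theorem v27n_rec_unique_S {b S S' : ℕ → ℂ} (h : V27nRec b S) (h' : V27nRec b S') (hS : S 0 = 0)
    (hS' : S' 0 = 0) (h0 : b 0 = 1) : S = S' := by
  funext d
  induction d using Nat.strong_induction_on with
  | _ d ih =>
    rcases Nat.eq_zero_or_pos d with rfl | hd
    · rw [hS, hS']
    · have e1 := h d
      have e2 := h' d
      rw [e1] at e2
      -- split off the term `(d, 0)`
      have hmem : (d, 0) ∈ antidiagonal d := by simp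
      rw [← Finset.add_sum_erase _ _ hmem, ← Finset.add_sum_erase _ _ hmem] at e2
      have key : ∑ p ∈ (antidiagonal d).erase (d, 0), S p.1 * b p.2 =
          ∑ p ∈ (antidiagonal d).erase (d, 0), S' p.1 * b p.2 := by
        apply Finset.sum_congr rfl
        intro p hp
        rw [Finset.mem_erase, HasAntidiagonal.mem_antidiagonal] at hp
        have hlt : p.1 < d := by
          rcases hp with ⟨hne, hsum⟩
          by_contra hge
          apply hne
          have h1 : p.1 = d := by omega
          have h2 : p.2 = 0 := by omega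
          exact Prod.ext h1 h2
        rw [ih p.1 hlt]
      rw [key] at e2
      have e3 := add_right_cancel e2
      change S d * b 0 = S' d * b 0 at e3
      rwa [h0, mul_one, mul_one] at e3

/-- the coefficient sequence of `∏ (1 - β X)` -/
noncomputable def v27nProdB (M : Multiset ℂ) : ℕ → ℂ := fun d =>
  coeff d ((M.map fun β => (1 - C β * X : ℂ⟦X⟧)).prod)

/-- minus the power sums -/
noncomputable def v27nPowSum (M : Multiset ℂ) : ℕ → ℂ := fun m =>
  if m = 0 then 0 else -(M.map fun β => β ^ m).sum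

theorem v27nPowSum_zero (M : Multiset ℂ) : v27nPowSum M 0 = 0 := by simp [v27nPowSum]

/-- `X · B' = S · B` for `B = ∏ (1 - β X)`, `S = - Σ_{m ≥ 1} (Σ β^m) X^m` -/
theorem v27n_prod_ode (M : Multiset ℂ) :
    (X : ℂ⟦X⟧) * d⁄dX ℂ ((M.map fun β => (1 - C β * X : ℂ⟦X⟧)).prod) =
      PowerSeries.mk (v27nPowSum M) * (M.map fun β => (1 - C β * X : ℂ⟦X⟧)).prod := by
  induction M using Multiset.induction_on with
  | empty =>
    have : PowerSeries.mk (v27nPowSum 0) = 0 := by
      ext m; simp [v27nPowSum]
    simp [this]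
  | cons β M ih =>
    rw [Multiset.map_cons, Multiset.prod_cons]
    set B := (M.map fun β => (1 - C β * X : ℂ⟦X⟧)).prod with hB
    -- the geometric series
    have hgeo : (1 - C β * X : ℂ⟦X⟧) * PowerSeries.mk (fun m => β ^ m) = 1 := by
      ext m
      rw [sub_mul, one_mul, map_sub, mul_assoc, coeff_C_mul]
      rcases Nat.eq_zero_or_pos m with rfl | hm
      · simp
      · obtain ⟨k, rfl⟩ := Nat.exists_eq_succ_of_ne_zero hm.ne'
        rw [coeff_succ_X_mul, coeff_mk, coeff_mk, coeff_one, if_neg (Nat.succ_ne_zero k), pow_succ]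
        ring
    have hS : PowerSeries.mk (v27nPowSum (β ::ₘ M)) =
        PowerSeries.mk (v27nPowSum M) - (PowerSeries.mk (fun m => β ^ m) - 1) := by
      ext m
      rcases Nat.eq_zero_or_pos m with rfl | hm
      · simp [v27nPowSum]
      · simp [v27nPowSum, hm.ne', coeff_one]
        ring
    have hder : d⁄dX ℂ ((1 - C β * X : ℂ⟦X⟧) * B) =
        (1 - C β * X : ℂ⟦X⟧) * d⁄dX ℂ B + B * (-(C β)) := by
      rw [Derivation.leibniz]
      simp only [smul_eq_mul, map_sub, Derivation.leibniz, derivative_X, derivative_C]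
      have : d⁄dX ℂ (1 : ℂ⟦X⟧) = 0 := derivative_one
      rw [this]
      ring
    rw [hder, hS]
    have e1 : (X : ℂ⟦X⟧) * ((1 - C β * X) * d⁄dX ℂ B + B * (-(C β))) =
        (1 - C β * X) * (X * d⁄dX ℂ B) - C β * X * B := by ring
    rw [e1, ih]
    have e2 : (PowerSeries.mk (v27nPowSum M) - (PowerSeries.mk (fun m => β ^ m) - 1)) *
        ((1 - C β * X) * B) =
        (1 - C β * X) * (PowerSeries.mk (v27nPowSum M) * B) -
          ((1 - C β * X) * PowerSeries.mk (fun m => β ^ m) - (1 - C β * X)) * B := by ring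
    rw [e2, hgeo]
    ring

theorem v27nProdB_rec (M : Multiset ℂ) : V27nRec (v27nProdB M) (v27nPowSum M) := by
  intro d
  have h := congrArg (coeff d) (v27n_prod_ode M)
  have hR : coeff d (PowerSeries.mk (v27nPowSum M) *
      (M.map fun β => (1 - C β * X : ℂ⟦X⟧)).prod) =
      ∑ p ∈ antidiagonal d, v27nPowSum M p.1 * v27nProdB M p.2 := by
    rw [coeff_mul]
    simp only [coeff_mk, v27nProdB]
  rw [hR] at h
  rw [← h]
  rcases Nat.eq_zero_or_pos d with rfl | hd
  · simp
  · obtain ⟨k, rfl⟩ := Nat.exists_eq_succ_of_ne_zero hd.ne'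
    rw [coeff_succ_X_mul, coeff_derivative]
    simp only [v27nProdB]
    push_cast
    ring

theorem v27nProdB_zero (M : Multiset ℂ) : v27nProdB M 0 = 1 := by
  simp only [v27nProdB]
  rw [coeff_zero_eq_constantCoeff_apply, map_multiset_prod, Multiset.map_map]
  have : (M.map ((constantCoeff (R := ℂ)) ∘ fun β => (1 - C β * X : ℂ⟦X⟧))) = M.map fun _ => (1 : ℂ) := by
    apply Multiset.map_congr rfl
    intro β _
    simp
  rw [this]
  simp

theorem v27nProdB_eq_zero (M : Multiset ℂ) {d : ℕ} (hd : Multiset.card M < d) :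
    v27nProdB M d = 0 := by
  simp only [v27nProdB]
  have hcoe : (M.map fun β => (1 - C β * X : ℂ⟦X⟧)).prod =
      (((M.map fun β => (1 - Polynomial.C β * Polynomial.X : Polynomial ℂ)).prod : Polynomial ℂ) :
        ℂ⟦X⟧) := by
    rw [← Polynomial.coeToPowerSeries.ringHom_apply, map_multiset_prod, Multiset.map_map]
    apply congrArg
    apply Multiset.map_congr rfl
    intro β _
    simp [Polynomial.coeToPowerSeries.ringHom_apply]
  rw [hcoe, Polynomial.coeff_coe]
  apply Polynomial.coeff_eq_zero_of_natDegree_lt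
  refine lt_of_le_of_lt (Polynomial.natDegree_multiset_prod_le _) ?_
  rw [Multiset.map_map]
  refine lt_of_le_of_lt (Multiset.sum_le_card_nsmul _ 1 ?_) ?_
  · intro x hx
    rw [Multiset.mem_map] at hx
    obtain ⟨β, -, rfl⟩ := hx
    simp only [Function.comp]
    refine le_trans (Polynomial.natDegree_sub_le _ _) ?_
    rw [Polynomial.natDegree_one]
    simp only [zero_le, sup_of_le_right]
    exact le_trans (Polynomial.natDegree_C_mul_le _ _) Polynomial.natDegree_X_le
  · simpa using hd

/-- an eventually vanishing sequence with `b 0 = 1` is the coefficient sequence of some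
`∏ (1 - β X)` -/
theorem v27n_exists_roots {b : ℕ → ℂ} (h0 : b 0 = 1) {d₀ : ℕ} (hb : ∀ d, d₀ < d → b d = 0) :
    ∃ M : Multiset ℂ, b = v27nProdB M := by
  classical
  set P : Polynomial ℂ := ∑ d ∈ range (d₀ + 1), Polynomial.C (b d) * Polynomial.X ^ d with hP
  have hcoeff : ∀ d, P.coeff d = b d := by
    intro d
    rw [hP, Polynomial.finsetSum_coeff]
    simp only [Polynomial.coeff_C_mul, Polynomial.coeff_X_pow]
    by_cases hd : d ∈ range (d₀ + 1)
    · rw [Finset.sum_eq_single d]
      · simp
      · intro j _ hj; simp [Ne.symm hj]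
      · intro h; exact absurd hd h
    · rw [Finset.sum_eq_zero]
      · rw [hb d (by simpa using hd)]
      · intro j hj
        have : d ≠ j := fun h => hd (h ▸ hj)
        simp [this]
  have hP0 : P.eval 0 = 1 := by
    rw [← Polynomial.coeff_zero_eq_eval_zero, hcoeff, h0]
  have hPne : P ≠ 0 := by
    intro h; rw [h] at hP0; simp at hP0
  have hsplit := IsAlgClosed.splits P
  have hfac := hsplit.eq_prod_roots
  have hroots : ∀ r ∈ P.roots, r ≠ 0 := by
    intro r hr h
    rw [h] at hr
    have := (Polynomial.mem_roots hPne).mp hr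
    rw [Polynomial.IsRoot, hP0] at this
    exact one_ne_zero this
  -- the constant
  set κ : ℂ := P.leadingCoeff * (P.roots.map fun r => -r).prod with hκ
  have hfac2 : P = Polynomial.C κ *
      (P.roots.map fun r => (1 - Polynomial.C r⁻¹ * Polynomial.X : Polynomial ℂ)).prod := by
    conv_lhs => rw [hfac]
    rw [hκ, map_mul, mul_assoc]
    congr 1
    rw [map_multiset_prod, Multiset.map_map, ← Multiset.prod_map_mul]
    apply congrArg
    apply Multiset.map_congr rfl
    intro r hr
    have hr0 := hroots r hr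
    simp only [Function.comp]
    have hcc : (Polynomial.C r * Polynomial.C r⁻¹ : Polynomial ℂ) = 1 := by
      rw [← map_mul, mul_inv_cancel₀ hr0, map_one]
    calc Polynomial.X - Polynomial.C r
        = Polynomial.X * (Polynomial.C r * Polynomial.C r⁻¹) - Polynomial.C r := by
          rw [hcc, mul_one]
      _ = Polynomial.C (-r) * (1 - Polynomial.C r⁻¹ * Polynomial.X) := by
          rw [map_neg]; ring
  refine ⟨P.roots.map fun r => r⁻¹, ?_⟩
  -- transfer to power series
  have hps : (P : ℂ⟦X⟧) = C κ *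
      ((P.roots.map fun r => r⁻¹).map fun β => (1 - C β * X : ℂ⟦X⟧)).prod := by
    conv_lhs => rw [hfac2]
    rw [← Polynomial.coeToPowerSeries.ringHom_apply, map_mul, map_multiset_prod, Multiset.map_map,
      Multiset.map_map]
    congr 1
    · simp [Polynomial.coeToPowerSeries.ringHom_apply]
    · apply congrArg
      apply Multiset.map_congr rfl
      intro r _
      simp [Polynomial.coeToPowerSeries.ringHom_apply]
  have hκ1 : κ = 1 := by
    have h := congrArg (coeff 0) hps
    rw [Polynomial.coeff_coe, hcoeff, h0, coeff_C_mul] at h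
    have := v27nProdB_zero (P.roots.map fun r => r⁻¹)
    simp only [v27nProdB] at this
    rw [this, mul_one] at h
    exact h.symm
  funext d
  have h := congrArg (coeff d) hps
  rw [Polynomial.coeff_coe, hcoeff, hκ1, map_one, one_mul] at h
  exact h

/-- **the sequence lemma** -/
theorem v27n_seq_main {b S b' S' : ℕ → ℂ} (h : V27nRec b S) (h' : V27nRec b' S') (hS : S 0 = 0)
    (hS' : S' 0 = 0) (h0 : b 0 = 1) (h0' : b' 0 = 1) {n : ℕ}
    (hSS : ∀ m, 0 < m → S' m = S (n * m)) (hn : 0 < n) {d₀ : ℕ} (hb : ∀ d, d₀ < d → b d = 0) :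
    ∃ d₁ : ℕ, ∀ d, d₁ < d → b' d = 0 := by
  obtain ⟨M, hM⟩ := v27n_exists_roots h0 hb
  have hSM : S = v27nPowSum M := by
    apply v27n_rec_unique_S h _ hS (v27nPowSum_zero M) h0
    rw [hM]
    exact v27nProdB_rec M
  set M' : Multiset ℂ := M.map fun β => β ^ n with hM'
  have hS'M : S' = v27nPowSum M' := by
    funext m
    rcases Nat.eq_zero_or_pos m with rfl | hm
    · rw [hS', v27nPowSum_zero]
    · rw [hSS m hm, hSM]
      have hnm : n * m ≠ 0 := (Nat.mul_pos hn hm).ne'
      simp only [v27nPowSum, if_neg hnm, if_neg hm.ne', hM', Multiset.map_map, Function.comp,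
        pow_mul]
  have hb' : b' = v27nProdB M' := by
    apply v27n_rec_unique_b h' _ hS' (by rw [h0', v27nProdB_zero])
    rw [hS'M]
    exact v27nProdB_rec M'
  refine ⟨Multiset.card M', fun d hd => ?_⟩
  rw [hb']
  exact v27nProdB_eq_zero M' hd

end Fermat.Agent.V
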