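import Mathlib
import Fermat.Agent.V.NormSurj.Seq

/-!
# Program V (S27), leaf A5 (norm-surjectivity), part `Count` : the logarithmic derivative of an
`L`-series by double counting (prefix `v27n`)

`Pl` = places, `deg : Pl → ℕ` (positive, finitely many places of each degree), effective divisors
`= Pl →₀ ℕ`, `c : Pl → ℂ` the values of a character on the places.

* `v27nB c hfin d = Σ_{D ≥ 0, deg D = d} χ(D)`, `χ(D) = Π_v c(v)^{D v}`;
* `v27nS c hfin m = Σ_{v, deg v ∣ m} deg v · c(v)^{m / deg v}` (`m ≥ 1`; `0` for `m = 0`);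
* `v27n_rec : V27nRec (v27nB c hfin) (v27nS c hfin)`, i.e. `d · b_d = Σ_{i+j=d} S_i · b_j`.
-/

set_option autoImplicit false

namespace Fermat.Agent.V

open Finset

section Basic

variable {Pl : Type*} (deg : Pl → ℕ)

/-- the degree of an effective divisor -/
def v27nDeg (D : Pl →₀ ℕ) : ℕ := D.sum fun v k => k * deg v

@[simp] theorem v27nDeg_zero : v27nDeg deg (0 : Pl →₀ ℕ) = 0 := by simp [v27nDeg]

theorem v27nDeg_add (D E : Pl →₀ ℕ) : v27nDeg deg (D + E) = v27nDeg deg D + v27nDeg deg E := by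
  unfold v27nDeg
  exact Finsupp.sum_add_index' (fun _ => by simp) (fun _ _ _ => by ring)

theorem v27nDeg_single (v : Pl) (k : ℕ) : v27nDeg deg (Finsupp.single v k) = k * deg v := by
  unfold v27nDeg
  rw [Finsupp.sum_single_index]
  simp

theorem v27nDeg_apply_le (D : Pl →₀ ℕ) (v : Pl) : D v * deg v ≤ v27nDeg deg D := by
  unfold v27nDeg Finsupp.sum
  by_cases hv : v ∈ D.support
  · exact Finset.single_le_sum (f := fun v => D v * deg v) (fun _ _ => Nat.zero_le _) hv
  · rw [Finsupp.notMem_support_iff.mp hv]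
    simp

theorem v27nDeg_eq_sum (D : Pl →₀ ℕ) {s : Finset Pl} (hs : D.support ⊆ s) :
    v27nDeg deg D = ∑ v ∈ s, D v * deg v := by
  unfold v27nDeg
  exact Finsupp.sum_of_support_subset D hs _ (fun _ _ => by simp)

variable (c : Pl → ℂ)

/-- the value of the character on an effective divisor -/
noncomputable def v27nChi (D : Pl →₀ ℕ) : ℂ := D.prod fun v k => c v ^ k

@[simp] theorem v27nChi_zero : v27nChi c (0 : Pl →₀ ℕ) = 1 := by simp [v27nChi]

theorem v27nChi_add (D E : Pl →₀ ℕ) : v27nChi c (D + E) = v27nChi c D * v27nChi c E := by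
  unfold v27nChi
  exact Finsupp.prod_add_index' (fun _ => by simp) (fun _ _ _ => by rw [pow_add])

theorem v27nChi_single (v : Pl) (k : ℕ) : v27nChi c (Finsupp.single v k) = c v ^ k := by
  unfold v27nChi
  rw [Finsupp.prod_single_index]
  simp

end Basic

section Count

variable {Pl : Type*} {deg : Pl → ℕ}

/-- the places of degree `≤ d` -/
noncomputable def v27nPl (hfin : ∀ d : ℕ, {v | deg v ≤ d}.Finite) (d : ℕ) : Finset Pl :=
  (hfin d).toFinset

theorem mem_v27nPl (hfin : ∀ d : ℕ, {v | deg v ≤ d}.Finite) {d : ℕ} {v : Pl} :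
    v ∈ v27nPl hfin d ↔ deg v ≤ d := by
  simp [v27nPl]

/-- the effective divisors of degree `d` -/
noncomputable def v27nEff (hfin : ∀ d : ℕ, {v | deg v ≤ d}.Finite) (d : ℕ) : Finset (Pl →₀ ℕ) := by
  classical
  exact ((v27nPl hfin d).finsupp fun _ => range (d + 1)).filter fun D => v27nDeg deg D = d

theorem mem_v27nEff (hpos : ∀ v, 0 < deg v) (hfin : ∀ d : ℕ, {v | deg v ≤ d}.Finite) {d : ℕ}
    {D : Pl →₀ ℕ} : D ∈ v27nEff hfin d ↔ v27nDeg deg D = d := by
  classical
  unfold v27nEff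
  rw [Finset.mem_filter, Finset.mem_finsupp_iff]
  refine ⟨fun h => h.2, fun h => ⟨⟨?_, ?_⟩, h⟩⟩
  · intro v hv
    rw [mem_v27nPl]
    have h1 := v27nDeg_apply_le deg D v
    have h2 : 1 ≤ D v := Nat.one_le_iff_ne_zero.mpr (Finsupp.mem_support_iff.mp hv)
    calc deg v = 1 * deg v := (one_mul _).symm
      _ ≤ D v * deg v := Nat.mul_le_mul_right _ h2
      _ ≤ d := h ▸ h1
  · intro v _
    rw [Finset.mem_range]
    have h1 := v27nDeg_apply_le deg D v
    have h2 := hpos v
    have : D v ≤ D v * deg v := Nat.le_mul_of_pos_right _ h2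
    omega

theorem v27n_support_subset (hfin : ∀ d : ℕ, {v | deg v ≤ d}.Finite) {d : ℕ}
    {D : Pl →₀ ℕ} (hD : v27nDeg deg D = d) : D.support ⊆ v27nPl hfin d := by
  intro v hv
  rw [mem_v27nPl]
  have h1 := v27nDeg_apply_le deg D v
  have h2 : 1 ≤ D v := Nat.one_le_iff_ne_zero.mpr (Finsupp.mem_support_iff.mp hv)
  calc deg v = 1 * deg v := (one_mul _).symm
    _ ≤ D v * deg v := Nat.mul_le_mul_right _ h2
    _ ≤ d := hD ▸ h1

theorem v27n_apply_le (hpos : ∀ v, 0 < deg v) {d : ℕ} {D : Pl →₀ ℕ} (hD : v27nDeg deg D = d)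
    (v : Pl) : D v ≤ d := by
  have h1 := v27nDeg_apply_le deg D v
  have : D v ≤ D v * deg v := Nat.le_mul_of_pos_right _ (hpos v)
  omega

variable (c : Pl → ℂ)

/-- `b_d = Σ_{D ≥ 0, deg D = d} χ(D)` -/
noncomputable def v27nB (hfin : ∀ d : ℕ, {v | deg v ≤ d}.Finite) (d : ℕ) : ℂ :=
  ∑ D ∈ v27nEff hfin d, v27nChi c D

/-- `S_m = Σ_{deg v ∣ m} deg v · c(v)^{m / deg v}` for `m ≥ 1`, and `S_0 = 0` -/
noncomputable def v27nS (hfin : ∀ d : ℕ, {v | deg v ≤ d}.Finite) (m : ℕ) : ℂ :=
  if m = 0 then 0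
  else ∑ v ∈ v27nPl hfin m, if deg v ∣ m then (deg v : ℂ) * c v ^ (m / deg v) else 0

theorem v27nS_zero (hfin : ∀ d : ℕ, {v | deg v ≤ d}.Finite) : v27nS c hfin 0 = 0 := by
  simp [v27nS]

theorem v27nEff_zero (hpos : ∀ v, 0 < deg v) (hfin : ∀ d : ℕ, {v | deg v ≤ d}.Finite) :
    v27nEff hfin 0 = {(0 : Pl →₀ ℕ)} := by
  ext D
  rw [mem_v27nEff hpos hfin, Finset.mem_singleton]
  constructor
  · intro h
    ext v
    have := v27n_apply_le hpos h v
    simpa using this
  · rintro rfl
    simp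

theorem v27nB_zero (hpos : ∀ v, 0 < deg v) (hfin : ∀ d : ℕ, {v | deg v ≤ d}.Finite) :
    v27nB c hfin 0 = 1 := by
  simp [v27nB, v27nEff_zero hpos hfin]

/-- shifting by `k · v` -/
theorem v27n_shift (hpos : ∀ v, 0 < deg v) (hfin : ∀ d : ℕ, {v | deg v ≤ d}.Finite) (v : Pl)
    (k d' : ℕ) :
    ∑ D ∈ (v27nEff hfin (d' + k * deg v)).filter (fun D => k ≤ D v), v27nChi c D =
      c v ^ k * v27nB c hfin d' := by
  classical
  unfold v27nB
  rw [Finset.mul_sum]
  refine Finset.sum_nbij' (fun D => D - Finsupp.single v k) (fun D' => D' + Finsupp.single v k)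
    ?_ ?_ ?_ ?_ ?_
  · intro D hD
    rw [Finset.mem_filter, mem_v27nEff hpos hfin] at hD
    rw [mem_v27nEff hpos hfin]
    have hle : Finsupp.single v k ≤ D := Finsupp.single_le_iff.mpr hD.2
    have h1 := v27nDeg_add deg (D - Finsupp.single v k) (Finsupp.single v k)
    rw [tsub_add_cancel_of_le hle, hD.1, v27nDeg_single] at h1
    omega
  · intro D' hD'
    rw [mem_v27nEff hpos hfin] at hD'
    rw [Finset.mem_filter, mem_v27nEff hpos hfin, v27nDeg_add, v27nDeg_single, hD']
    refine ⟨rfl, ?_⟩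
    simp
  · intro D hD
    rw [Finset.mem_filter] at hD
    exact tsub_add_cancel_of_le (Finsupp.single_le_iff.mpr hD.2)
  · intro D' _
    exact add_tsub_cancel_right _ _
  · intro D hD
    rw [Finset.mem_filter] at hD
    have hle : Finsupp.single v k ≤ D := Finsupp.single_le_iff.mpr hD.2
    conv_lhs => rw [← tsub_add_cancel_of_le hle]
    rw [v27nChi_add, v27nChi_single, mul_comm]

/-- the middle form of the identity -/
theorem v27n_rec_aux (hpos : ∀ v, 0 < deg v) (hfin : ∀ d : ℕ, {v | deg v ≤ d}.Finite) (d : ℕ) :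
    (d : ℂ) * v27nB c hfin d =
      ∑ v ∈ v27nPl hfin d, ∑ k ∈ Icc 1 d,
        if k * deg v ≤ d then (deg v : ℂ) * (c v ^ k * v27nB c hfin (d - k * deg v)) else 0 := by
  classical
  -- step 1
  have h1 : (d : ℂ) * v27nB c hfin d =
      ∑ D ∈ v27nEff hfin d, ∑ v ∈ v27nPl hfin d, ∑ k ∈ Icc 1 d,
        if k ≤ D v then (deg v : ℂ) * v27nChi c D else 0 := by
    unfold v27nB
    rw [Finset.mul_sum]
    apply Finset.sum_congr rfl
    intro D hD
    rw [mem_v27nEff hpos hfin] at hD
    have hsum := v27nDeg_eq_sum deg D (v27n_support_subset hfin hD)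
    rw [hD] at hsum
    have hdC : (d : ℂ) = ∑ v ∈ v27nPl hfin d, (D v : ℂ) * (deg v : ℂ) := by
      conv_lhs => rw [hsum]
      push_cast
      rfl
    rw [hdC, Finset.sum_mul]
    apply Finset.sum_congr rfl
    intro v _
    have hDv := v27n_apply_le hpos hD v
    have hcard : ((Icc 1 d).filter fun k => k ≤ D v).card = D v := by
      have : (Icc 1 d).filter (fun k => k ≤ D v) = Icc 1 (D v) := by
        ext k
        simp only [Finset.mem_filter, Finset.mem_Icc]
        omega
      rw [this]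
      simp
    rw [← Finset.sum_filter, Finset.sum_const, hcard]
    simp only [nsmul_eq_mul]
    ring
  rw [h1]
  -- step 2 : swap
  rw [Finset.sum_comm]
  apply Finset.sum_congr rfl
  intro v _
  rw [Finset.sum_comm]
  apply Finset.sum_congr rfl
  intro k hk
  rw [← Finset.sum_filter, ← Finset.mul_sum]
  by_cases hkd : k * deg v ≤ d
  · rw [if_pos hkd]
    have hd : d = (d - k * deg v) + k * deg v := by omega
    conv_lhs => rw [hd]
    rw [v27n_shift c hpos hfin v k (d - k * deg v)]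
  · rw [if_neg hkd]
    have : (v27nEff hfin d).filter (fun D => k ≤ D v) = ∅ := by
      rw [Finset.filter_eq_empty_iff]
      intro D hD hkD
      rw [mem_v27nEff hpos hfin] at hD
      apply hkd
      calc k * deg v ≤ D v * deg v := Nat.mul_le_mul_right _ hkD
        _ ≤ d := hD ▸ v27nDeg_apply_le deg D v
    rw [this]
    simp

/-- **the logarithmic-derivative identity** `d · b_d = Σ_{i+j=d} S_i · b_j` -/
theorem v27n_rec (hpos : ∀ v, 0 < deg v) (hfin : ∀ d : ℕ, {v | deg v ≤ d}.Finite) :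
    V27nRec (v27nB c hfin) (v27nS c hfin) := by
  classical
  intro d
  rw [v27n_rec_aux c hpos hfin d]
  -- the right-hand side
  rw [Finset.Nat.sum_antidiagonal_eq_sum_range_succ_mk]
  have hR : ∀ m ∈ range d.succ, v27nS c hfin m * v27nB c hfin (d - m) =
      ∑ v ∈ v27nPl hfin d,
        if m ≠ 0 ∧ deg v ∣ m then (deg v : ℂ) * (c v ^ (m / deg v) * v27nB c hfin (d - m))
        else 0 := by
    intro m hm
    rw [Finset.mem_range] at hm
    unfold v27nS
    by_cases hm0 : m = 0
    · simp [hm0]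
    · rw [if_neg hm0, Finset.sum_mul]
      have hsub : v27nPl hfin m ⊆ v27nPl hfin d := by
        intro v hv
        rw [mem_v27nPl] at hv ⊢
        omega
      rw [← Finset.sum_subset hsub]
      · apply Finset.sum_congr rfl
        intro v _
        by_cases hdv : deg v ∣ m
        · rw [if_pos hdv, if_pos ⟨hm0, hdv⟩]
          ring
        · rw [if_neg hdv, if_neg (fun h => hdv h.2)]
          simp
      · intro v _ hv
        rw [mem_v27nPl] at hv
        have : ¬ deg v ∣ m := fun h => hv (Nat.le_of_dvd (Nat.pos_of_ne_zero hm0) h)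
        rw [if_neg (fun h => this h.2)]
  rw [Finset.sum_congr rfl hR]
  conv_rhs => rw [Finset.sum_comm]
  apply Finset.sum_congr rfl
  intro v _
  -- reindex `k ↦ k * deg v`
  rw [← Finset.sum_filter, ← Finset.sum_filter]
  have hdv := hpos v
  refine Finset.sum_nbij' (fun k => k * deg v) (fun m => m / deg v) ?_ ?_ ?_ ?_ ?_
  · intro k hk
    rw [Finset.mem_filter, Finset.mem_Icc] at hk
    rw [Finset.mem_filter, Finset.mem_range]
    refine ⟨by omega, ?_, Dvd.intro_left k rfl⟩
    have : 0 < k * deg v := Nat.mul_pos (by omega) hdv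
    omega
  · intro m hm
    rw [Finset.mem_filter, Finset.mem_range] at hm
    rw [Finset.mem_filter, Finset.mem_Icc]
    obtain ⟨hmd, hm0, hdiv⟩ := hm
    have h1 : m / deg v * deg v = m := Nat.div_mul_cancel hdiv
    refine ⟨⟨?_, ?_⟩, by omega⟩
    · exact Nat.div_pos (Nat.le_of_dvd (Nat.pos_of_ne_zero hm0) hdiv) hdv
    · have : m / deg v ≤ m := Nat.div_le_self _ _
      omega
  · intro k _
    exact Nat.mul_div_cancel k hdv
  · intro m hm
    rw [Finset.mem_filter] at hm
    exact Nat.div_mul_cancel hm.2.2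
  · intro k _
    rw [Nat.mul_div_cancel k hdv]

end Count

end Fermat.Agent.V
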