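import Mathlib
import Fermat.Agent.V.NormSurj.Count

/-!
# Program V (S27), leaf A5, complement : the trivial character (prefix `v27n`)

The logarithmic-derivative identity of `Count.lean` for the trivial character, as an identity in `ℕ`:
`d · A_d = Σ_{i < d} N_{i+1} · A_{d-(i+1)}`, `A_d = #{effective divisors of degree d}`,
`N_m = Σ_{deg v ∣ m} deg v`.  (The shape of `hrec` in leaf ZB.)
-/

set_option autoImplicit false

namespace Fermat.Agent.V

open Finset

variable {Pl : Type*} {deg : Pl → ℕ}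

/-- `N_m = Σ_{deg v ∣ m} deg v` ("the number of points of degree one over the extension of degree
`m` of the constant field") -/
noncomputable def v27nN (hfin : ∀ d : ℕ, {v | deg v ≤ d}.Finite) (m : ℕ) : ℕ := by
  classical
  exact ∑ v ∈ (v27nPl hfin m).filter (fun v => deg v ∣ m), deg v

/-- `A_d`, the number of effective divisors of degree `d` -/
noncomputable def v27nA (hfin : ∀ d : ℕ, {v | deg v ≤ d}.Finite) (d : ℕ) : ℕ :=
  (v27nEff hfin d).card

theorem v27nA_eq_natCard (hpos : ∀ v, 0 < deg v) (hfin : ∀ d : ℕ, {v | deg v ≤ d}.Finite) (d : ℕ) :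
    v27nA hfin d = Nat.card {D : Pl →₀ ℕ // v27nDeg deg D = d} := by
  unfold v27nA
  rw [← Nat.card_eq_finsetCard]
  apply Nat.card_congr
  exact Equiv.subtypeEquivRight fun D => mem_v27nEff hpos hfin

theorem v27nA_zero (hpos : ∀ v, 0 < deg v) (hfin : ∀ d : ℕ, {v | deg v ≤ d}.Finite) :
    v27nA hfin 0 = 1 := by
  unfold v27nA
  rw [v27nEff_zero hpos hfin]
  simp

theorem v27nChi_one (D : Pl →₀ ℕ) : v27nChi (fun _ => (1 : ℂ)) D = 1 := by
  unfold v27nChi Finsupp.prod
  simp

theorem v27nB_one (hfin : ∀ d : ℕ, {v | deg v ≤ d}.Finite) (d : ℕ) :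
    v27nB (fun _ => (1 : ℂ)) hfin d = (v27nA hfin d : ℂ) := by
  unfold v27nB v27nA
  simp [v27nChi_one]

theorem v27nS_one (hfin : ∀ d : ℕ, {v | deg v ≤ d}.Finite) (m : ℕ) (hm : m ≠ 0) :
    v27nS (fun _ => (1 : ℂ)) hfin m = (v27nN hfin m : ℂ) := by
  classical
  unfold v27nS v27nN
  rw [if_neg hm, Finset.sum_filter]
  push_cast
  apply Finset.sum_congr rfl
  intro v _
  by_cases h : deg v ∣ m
  · simp [h]
  · simp [h]

/-- **the recursion for the trivial character, in `ℕ`** -/
theorem v27n_rec_nat (hpos : ∀ v, 0 < deg v) (hfin : ∀ d : ℕ, {v | deg v ≤ d}.Finite) (d : ℕ) :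
    d * v27nA hfin d = ∑ i ∈ range d, v27nN hfin (i + 1) * v27nA hfin (d - (i + 1)) := by
  have h := v27n_rec (fun _ => (1 : ℂ)) hpos hfin d
  rw [Finset.Nat.sum_antidiagonal_eq_sum_range_succ_mk, Finset.sum_range_succ'] at h
  simp only [v27nS_zero, zero_mul, add_zero] at h
  have h2 : ∀ i ∈ range d, v27nS (fun _ => (1 : ℂ)) hfin (i + 1) *
      v27nB (fun _ => (1 : ℂ)) hfin (d - (i + 1)) =
        ((v27nN hfin (i + 1) * v27nA hfin (d - (i + 1)) : ℕ) : ℂ) := by
    intro i _
    rw [v27nS_one hfin (i + 1) (Nat.succ_ne_zero i), v27nB_one]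
    push_cast
    rfl
  rw [Finset.sum_congr rfl h2, v27nB_one] at h
  exact_mod_cast h

end Fermat.Agent.V
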