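import Mathlib
import Fermat.Agent.V.NormSurj.Count

/-!
# Program V (S27), leaf A5 : surjectivity of the norm on degree-zero classes (prefix `v27n`)

Abstract setting: two "levels" (places with degrees, a class group with a degree map), a norm
`N : G' →+ G` multiplying degrees by `n`, the splitting behaviour of places
(`hfib`, `hdegπ`, `hNcl`) and, on the lower level only, "the number of effective divisors in a class
of large degree depends only on the degree" (`hRR`).  Conclusion: `N` maps `ker dg'` ONTO `ker dg`.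

Proof: a character `ψ` of `G` killing `N (ker dg')` but not `ker dg` has an `L`-series which is a
polynomial (`v27n_b_vanish`), the `L`-series of `ψ ∘ N` is determined by it (`v27n_S_norm`,
`v27n_seq_main`) and is a polynomial too, but `ψ ∘ N` is trivial on `ker dg'`, so its `L`-series
has infinitely many non-zero coefficients (`v27n_b_ne_zero`).
-/

set_option autoImplicit false

namespace Fermat.Agent.V

open Finset

section Cl

variable {Pl G : Type*} [AddCommGroup G] (cl : Pl → G)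

/-- the class of an effective divisor -/
def v27nCl (D : Pl →₀ ℕ) : G := D.sum fun v k => k • cl v

theorem v27nCl_zero : v27nCl cl (0 : Pl →₀ ℕ) = 0 := by simp [v27nCl]

theorem v27nCl_add (D E : Pl →₀ ℕ) : v27nCl cl (D + E) = v27nCl cl D + v27nCl cl E := by
  unfold v27nCl
  exact Finsupp.sum_add_index' (fun _ => by simp) (fun _ _ _ => by rw [add_smul])

theorem v27nCl_single (v : Pl) (k : ℕ) : v27nCl cl (Finsupp.single v k) = k • cl v := by
  unfold v27nCl
  rw [Finsupp.sum_single_index]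
  simp

theorem v27n_dg_cl {deg : Pl → ℕ} (dg : G →+ ℤ) (hcl : ∀ v, dg (cl v) = deg v) (D : Pl →₀ ℕ) :
    dg (v27nCl cl D) = (v27nDeg deg D : ℤ) := by
  induction D using Finsupp.induction_linear with
  | zero => simp [v27nCl_zero]
  | add D E hD hE =>
    rw [v27nCl_add, map_add, hD, hE, v27nDeg_add]
    push_cast
    rfl
  | single v k =>
    rw [v27nCl_single, map_nsmul, hcl, v27nDeg_single]
    simp

theorem v27n_chi_cl (ψ : AddChar G ℂ) (D : Pl →₀ ℕ) :
    v27nChi (fun v => ψ (cl v)) D = ψ (v27nCl cl D) := by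
  induction D using Finsupp.induction_linear with
  | zero => simp [v27nCl_zero]
  | add D E hD hE => rw [v27nCl_add, v27nChi_add, hD, hE, AddChar.map_add_eq_mul]
  | single v k => rw [v27nCl_single, v27nChi_single, AddChar.map_nsmul_eq_pow]

end Cl

/-- **vanishing**: if the number of effective divisors in a class of degree `d` is invariant under
translation by a degree-zero class `a` with `ψ a ≠ 1`, then `b_d (ψ) = 0`. -/
theorem v27n_b_vanish {Pl G : Type*} [AddCommGroup G] {deg : Pl → ℕ} (hpos : ∀ v, 0 < deg v)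
    (hfin : ∀ d : ℕ, {v | deg v ≤ d}.Finite) (dg : G →+ ℤ) (cl : Pl → G)
    (hcl : ∀ v, dg (cl v) = deg v) [Finite dg.ker] (ψ : AddChar G ℂ) (a : G) (ha : dg a = 0)
    (hψa : ψ a ≠ 1) (d : ℕ)
    (hRR : ∀ C : G, dg C = d → Nat.card {D : Pl →₀ ℕ // v27nCl cl D = C} =
      Nat.card {D : Pl →₀ ℕ // v27nCl cl D = C + a}) :
    v27nB (fun v => ψ (cl v)) hfin d = 0 := by
  classical
  -- finiteness of the set of classes of degree `d`
  have hTfin : {C : G | dg C = (d : ℤ)}.Finite := by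
    rcases Set.eq_empty_or_nonempty {C : G | dg C = (d : ℤ)} with h | ⟨C₀, hC₀⟩
    · rw [h]
      exact Set.finite_empty
    · refine (Set.finite_range (fun x : dg.ker => (x : G) + C₀)).subset ?_
      intro C hC
      rw [Set.mem_ofPred_eq] at hC hC₀
      refine ⟨⟨C - C₀, ?_⟩, ?_⟩
      · rw [AddMonoidHom.mem_ker, map_sub, hC, hC₀, sub_self]
      · simp
  set T := hTfin.toFinset with hT
  have hmemT : ∀ C, C ∈ T ↔ dg C = (d : ℤ) := by
    intro C
    simp [hT]
  -- the number of effective divisors in a class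
  set M : G → ℕ := fun C => Nat.card {D : Pl →₀ ℕ // v27nCl cl D = C} with hM
  have hfiber : ∀ C ∈ T, ((v27nEff hfin d).filter fun D => v27nCl cl D = C).card = M C := by
    intro C hC
    rw [hmemT] at hC
    rw [hM, ← Nat.card_eq_finsetCard]
    apply Nat.card_congr
    refine Equiv.subtypeEquivRight ?_
    intro D
    rw [Finset.mem_filter, mem_v27nEff hpos hfin]
    constructor
    · exact fun h => h.2
    · intro h
      refine ⟨?_, h⟩
      have h1 := v27n_dg_cl cl dg hcl D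
      rw [h, hC] at h1
      exact_mod_cast h1.symm
  -- the sum as a sum over classes
  have hsum : v27nB (fun v => ψ (cl v)) hfin d = ∑ C ∈ T, (M C : ℂ) * ψ C := by
    unfold v27nB
    rw [← Finset.sum_fiberwise_of_maps_to (g := v27nCl cl) (t := T)]
    · apply Finset.sum_congr rfl
      intro C hC
      rw [← hfiber C hC, Finset.card_eq_sum_ones, Nat.cast_sum, Finset.sum_mul]
      apply Finset.sum_congr rfl
      intro D hD
      rw [Finset.mem_filter] at hD
      rw [v27n_chi_cl, hD.2]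
      simp
    · intro D hD
      rw [mem_v27nEff hpos hfin] at hD
      rw [hmemT, v27n_dg_cl cl dg hcl D, hD]
  -- translation by `a`
  have htrans : ∑ C ∈ T, (M C : ℂ) * ψ C = ∑ C ∈ T, (M (C + a) : ℂ) * ψ (C + a) := by
    symm
    refine Finset.sum_nbij' (fun C => C + a) (fun C => C - a) ?_ ?_ ?_ ?_ ?_
    · intro C hC
      rw [hmemT] at hC ⊢
      rw [map_add, hC, ha, add_zero]
    · intro C hC
      rw [hmemT] at hC ⊢
      rw [map_sub, hC, ha, sub_zero]
    · intro C _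
      exact add_sub_cancel_right C a
    · intro C _
      exact sub_add_cancel C a
    · intro C _
      rfl
  have hmul : ∑ C ∈ T, (M (C + a) : ℂ) * ψ (C + a) = ψ a * ∑ C ∈ T, (M C : ℂ) * ψ C := by
    rw [Finset.mul_sum]
    apply Finset.sum_congr rfl
    intro C hC
    rw [hmemT] at hC
    rw [AddChar.map_add_eq_mul]
    have h1 : M (C + a) = M C := (hRR C hC).symm
    rw [h1]
    ring
  rw [hsum]
  have h0 : (ψ a - 1) * ∑ C ∈ T, (M C : ℂ) * ψ C = 0 := by
    rw [sub_mul, one_mul, ← hmul, ← htrans, sub_self]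
  rcases mul_eq_zero.mp h0 with h | h
  · exact absurd (sub_eq_zero.mp h) hψa
  · exact h

/-- **non-vanishing**: if `ψ` is trivial on the classes of degree zero, then `b_d (ψ) ≠ 0` for all
multiples `d` of the degree of a place. -/
theorem v27n_b_ne_zero {Pl G : Type*} [AddCommGroup G] {deg : Pl → ℕ} (hpos : ∀ v, 0 < deg v)
    (hfin : ∀ d : ℕ, {v | deg v ≤ d}.Finite) (dg : G →+ ℤ) (cl : Pl → G)
    (hcl : ∀ v, dg (cl v) = deg v) (ψ : AddChar G ℂ) (hψ : ∀ x, dg x = 0 → ψ x = 1) (w₀ : Pl)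
    (k : ℕ) : v27nB (fun v => ψ (cl v)) hfin (k * deg w₀) ≠ 0 := by
  classical
  have hconst : ∀ D ∈ v27nEff hfin (k * deg w₀),
      v27nChi (fun v => ψ (cl v)) D = ψ (k • cl w₀) := by
    intro D hD
    rw [mem_v27nEff hpos hfin] at hD
    rw [v27n_chi_cl]
    have h1 : dg (v27nCl cl D - k • cl w₀) = 0 := by
      rw [map_sub, v27n_dg_cl cl dg hcl D, hD, map_nsmul, hcl]
      simp
    have h2 := hψ _ h1
    have h3 : v27nCl cl D = (v27nCl cl D - k • cl w₀) + k • cl w₀ := by abel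
    rw [h3, AddChar.map_add_eq_mul, h2, one_mul]
  unfold v27nB
  rw [Finset.sum_congr rfl hconst, Finset.sum_const, nsmul_eq_mul]
  apply mul_ne_zero
  · have hmem : (Finsupp.single w₀ k) ∈ v27nEff hfin (k * deg w₀) := by
      rw [mem_v27nEff hpos hfin, v27nDeg_single]
    have hc : (v27nEff hfin (k * deg w₀)).card ≠ 0 := Finset.card_ne_zero.mpr ⟨_, hmem⟩
    exact_mod_cast hc
  · exact (ψ.val_isUnit _).ne_zero

/-- **the power sums of the norm character**: `S'_m (c') = S_{n m} (c)` -/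
theorem v27n_S_norm {Pl Pl' : Type*} {deg : Pl → ℕ} {deg' : Pl' → ℕ}
    (hfin : ∀ d : ℕ, {v | deg v ≤ d}.Finite) (hfin' : ∀ d : ℕ, {w | deg' w ≤ d}.Finite)
    (n : ℕ) (hn : 0 < n) (π : Pl' → Pl)
    (hfib : ∀ v, Nat.card {w // π w = v} = Nat.gcd n (deg v))
    (hdegπ : ∀ w, deg' w * Nat.gcd n (deg (π w)) = deg (π w))
    (c : Pl → ℂ) (c' : Pl' → ℂ) (hc' : ∀ w, c' w = c (π w) ^ (n / Nat.gcd n (deg (π w))))
    (m : ℕ) (hm : 0 < m) : v27nS c' hfin' m = v27nS c hfin (n * m) := by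
  classical
  unfold v27nS
  rw [if_neg hm.ne', if_neg (Nat.mul_pos hn hm).ne']
  have hmaps : ∀ w ∈ v27nPl hfin' m, π w ∈ v27nPl hfin (n * m) := by
    intro w hw
    rw [mem_v27nPl] at hw ⊢
    rw [← hdegπ w]
    have hg : Nat.gcd n (deg (π w)) ≤ n := Nat.le_of_dvd hn (Nat.gcd_dvd_left _ _)
    calc deg' w * Nat.gcd n (deg (π w)) ≤ m * n := Nat.mul_le_mul hw hg
      _ = n * m := Nat.mul_comm _ _
  rw [← Finset.sum_fiberwise_of_maps_to hmaps]
  apply Finset.sum_congr rfl
  intro v _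
  -- the fibre over `v`
  have hgpos : 0 < Nat.gcd n (deg v) := Nat.gcd_pos_of_pos_left _ hn
  have hδ : Nat.gcd n (deg v) * (deg v / Nat.gcd n (deg v)) = deg v :=
    Nat.mul_div_cancel' (Nat.gcd_dvd_right _ _)
  have hn' : Nat.gcd n (deg v) * (n / Nat.gcd n (deg v)) = n :=
    Nat.mul_div_cancel' (Nat.gcd_dvd_left _ _)
  have hcop : Nat.Coprime (deg v / Nat.gcd n (deg v)) (n / Nat.gcd n (deg v)) :=
    (Nat.coprime_div_gcd_div_gcd hgpos).symm
  generalize hgdef : Nat.gcd n (deg v) = g at hgpos hδ hn' hcop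
  generalize hδ₁def : deg v / g = δ₁ at hδ hcop
  generalize hn₁def : n / g = n₁ at hn' hcop
  have hdeg'w : ∀ w, π w = v → deg' w = δ₁ := by
    intro w hw
    have h1 := hdegπ w
    rw [hw, hgdef, ← hδ, Nat.mul_comm] at h1
    exact Nat.eq_of_mul_eq_mul_left hgpos h1
  have hiff : deg v ∣ n * m ↔ δ₁ ∣ m := by
    rw [← hδ, ← hn', Nat.mul_assoc, Nat.mul_dvd_mul_iff_left hgpos]
    exact hcop.dvd_mul_left
  by_cases hdiv : δ₁ ∣ m
  · rw [if_pos (hiff.mpr hdiv)]
    have hterm : ∀ w ∈ (v27nPl hfin' m).filter (fun w => π w = v),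
        (if deg' w ∣ m then (deg' w : ℂ) * c' w ^ (m / deg' w) else 0) =
          (δ₁ : ℂ) * c v ^ (n * m / deg v) := by
      intro w hw
      rw [Finset.mem_filter] at hw
      rw [hdeg'w w hw.2, if_pos hdiv, hc' w, hw.2, ← pow_mul, hgdef, hn₁def]
      congr 2
      obtain ⟨m₁, rfl⟩ := hdiv
      have hδ₁pos : 0 < δ₁ := by
        rcases Nat.eq_zero_or_pos δ₁ with h | h
        · rw [h, zero_mul] at hm
          exact absurd hm (lt_irrefl 0)
        · exact h
      rw [Nat.mul_div_cancel_left _ hδ₁pos]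
      symm
      apply Nat.div_eq_of_eq_mul_left
      · rw [← hδ]
        exact Nat.mul_pos hgpos hδ₁pos
      · rw [← hδ, ← hn']
        ring
    rw [Finset.sum_congr rfl hterm, Finset.sum_const, nsmul_eq_mul]
    have hcard : ((v27nPl hfin' m).filter (fun w => π w = v)).card = g := by
      rw [← hgdef, ← hfib v, ← Nat.card_eq_finsetCard]
      apply Nat.card_congr
      refine Equiv.subtypeEquivRight ?_
      intro w
      rw [Finset.mem_filter, mem_v27nPl]
      constructor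
      · exact fun h => h.2
      · intro h
        refine ⟨?_, h⟩
        rw [hdeg'w w h]
        exact Nat.le_of_dvd hm hdiv
    rw [hcard]
    have h2 : (deg v : ℂ) = (g : ℂ) * (δ₁ : ℂ) := by
      rw [← hδ]
      push_cast
      rfl
    rw [h2]
    ring
  · rw [if_neg (fun h => hdiv (hiff.mp h))]
    apply Finset.sum_eq_zero
    intro w hw
    rw [Finset.mem_filter] at hw
    rw [hdeg'w w hw.2, if_neg hdiv]

/-- **existence of a character** killing `B` but not `a ∈ ker dg ∖ B` -/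
theorem v27n_exists_char {G : Type*} [AddCommGroup G] (dg : G →+ ℤ) [Finite dg.ker]
    (B : AddSubgroup G) (hB : B ≤ dg.ker) (x₀ : G) (hx₀ : dg x₀ ≠ 0) (a : G) (ha : dg a = 0)
    (haB : a ∉ B) : ∃ ψ : AddChar G ℂ, (∀ b ∈ B, ψ b = 1) ∧ ψ a ≠ 1 := by
  classical
  obtain ⟨e, he⟩ := Int.subgroup_cyclic dg.range
  have hemem : e ∈ dg.range := by
    rw [he]
    exact AddSubgroup.subset_closure (Set.mem_singleton e)
  obtain ⟨C₁, hC₁⟩ := hemem
  have hk : ∀ x, ∃ k : ℤ, dg x = k * e := by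
    intro x
    have h1 : dg x ∈ dg.range := ⟨x, rfl⟩
    rw [he, AddSubgroup.mem_closure_singleton] at h1
    obtain ⟨k, hk⟩ := h1
    exact ⟨k, by rw [← hk, smul_eq_mul]⟩
  have he0 : e ≠ 0 := by
    rintro rfl
    obtain ⟨k, hk⟩ := hk x₀
    exact hx₀ (by rw [hk, mul_zero])
  set H : AddSubgroup G := B ⊔ AddSubgroup.zmultiples C₁ with hH
  have haH : a ∉ H := by
    intro h
    rw [hH, AddSubgroup.mem_sup] at h
    obtain ⟨b, hb, z, hz, hbz⟩ := h
    rw [AddSubgroup.mem_zmultiples_iff] at hz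
    obtain ⟨k, rfl⟩ := hz
    have h1 : dg b = 0 := hB hb
    have h2 : dg (b + k • C₁) = 0 := by rw [hbz, ha]
    rw [map_add, h1, zero_add, map_zsmul, hC₁, smul_eq_mul] at h2
    have hk0 : k = 0 := by
      rcases mul_eq_zero.mp h2 with h | h
      · exact h
      · exact absurd h he0
    rw [hk0, zero_smul, add_zero] at hbz
    exact haB (hbz ▸ hb)
  have hfinQ : Finite (G ⧸ H) := by
    refine Finite.of_surjective (fun x : dg.ker => (QuotientAddGroup.mk (x : G) : G ⧸ H)) ?_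
    intro q
    obtain ⟨x, rfl⟩ := QuotientAddGroup.mk_surjective q
    obtain ⟨k, hk⟩ := hk x
    refine ⟨⟨x - k • C₁, ?_⟩, ?_⟩
    · rw [AddMonoidHom.mem_ker, map_sub, map_zsmul, hC₁, hk, smul_eq_mul, sub_self]
    · rw [QuotientAddGroup.eq]
      have h1 : -(x - k • C₁) + x = k • C₁ := by abel
      rw [h1]
      exact AddSubgroup.mem_sup_right
        (AddSubgroup.zsmul_mem _ (AddSubgroup.mem_zmultiples C₁) k)
  have hne : (QuotientAddGroup.mk a : G ⧸ H) ≠ 0 := by
    rw [Ne, QuotientAddGroup.eq_zero_iff]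
    exact haH
  obtain ⟨ψ₀, hψ₀⟩ := AddChar.exists_apply_ne_zero.mpr hne
  refine ⟨ψ₀.compAddMonoidHom (QuotientAddGroup.mk' H), ?_, ?_⟩
  · intro b hb
    rw [AddChar.compAddMonoidHom_apply]
    have h1 : (QuotientAddGroup.mk' H) b = 0 := by
      rw [QuotientAddGroup.mk'_apply, QuotientAddGroup.eq_zero_iff]
      exact AddSubgroup.mem_sup_left hb
    rw [h1, AddChar.map_zero_eq_one]
  · exact hψ₀

/-- **A5 : the norm is surjective on classes of degree zero.** -/
theorem v27n_norm_surj {Pl Pl' G G' : Type*} [AddCommGroup G] [AddCommGroup G']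
    (deg : Pl → ℕ) (deg' : Pl' → ℕ) (hpos : ∀ v, 0 < deg v) (hpos' : ∀ w, 0 < deg' w)
    (hfin : ∀ d : ℕ, {v | deg v ≤ d}.Finite) (hfin' : ∀ d : ℕ, {w | deg' w ≤ d}.Finite)
    (hne' : Nonempty Pl') (dg : G →+ ℤ) (dg' : G' →+ ℤ) (cl : Pl → G) (cl' : Pl' → G')
    (hcl : ∀ v, dg (cl v) = deg v) (hcl' : ∀ w, dg' (cl' w) = deg' w) [Finite dg.ker]
    (n : ℕ) (hn : 0 < n) (N : G' →+ G) (hNdeg : ∀ x, dg (N x) = n * dg' x) (π : Pl' → Pl)
    (hfib : ∀ v, Nat.card {w // π w = v} = Nat.gcd n (deg v))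
    (hdegπ : ∀ w, deg' w * Nat.gcd n (deg (π w)) = deg (π w))
    (hNcl : ∀ w, N (cl' w) = (n / Nat.gcd n (deg (π w))) • cl (π w))
    (hRR : ∃ d₀ : ℤ, ∀ C C' : G, dg C = dg C' → d₀ < dg C →
      Nat.card {D : Pl →₀ ℕ // D.sum (fun v k => k • cl v) = C} =
        Nat.card {D : Pl →₀ ℕ // D.sum (fun v k => k • cl v) = C'}) :
    ∀ a : G, dg a = 0 → ∃ a' : G', dg' a' = 0 ∧ N a' = a := by
  intro a ha
  by_contra hcon
  push Not at hcon
  obtain ⟨w₀⟩ := hne'
  obtain ⟨d₀, hRR⟩ := hRR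
  set B : AddSubgroup G := dg'.ker.map N with hBdef
  have hB : B ≤ dg.ker := by
    rintro _ ⟨x, hx, rfl⟩
    have hx' : dg' x = 0 := hx
    rw [AddMonoidHom.mem_ker, hNdeg, hx', mul_zero]
  have haB : a ∉ B := by
    rintro ⟨x, hx, hxa⟩
    exact hcon x hx hxa
  have hx₀ : dg (cl (π w₀)) ≠ 0 := by
    rw [hcl]
    exact_mod_cast (hpos _).ne'
  obtain ⟨ψ, hψB, hψa⟩ := v27n_exists_char dg B hB _ hx₀ a ha haB
  have hcc' : ∀ w, (fun w => (ψ.compAddMonoidHom N) (cl' w)) w =
      (fun v => ψ (cl v)) (π w) ^ (n / Nat.gcd n (deg (π w))) := by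
    intro w
    show ψ (N (cl' w)) = ψ (cl (π w)) ^ (n / Nat.gcd n (deg (π w)))
    rw [hNcl, AddChar.map_nsmul_eq_pow]
  have hS : ∀ m, 0 < m → v27nS (fun w => (ψ.compAddMonoidHom N) (cl' w)) hfin' m =
      v27nS (fun v => ψ (cl v)) hfin (n * m) := fun m hm =>
    v27n_S_norm hfin hfin' n hn π hfib hdegπ _ _ hcc' m hm
  have hb : ∀ d : ℕ, d₀.toNat < d → v27nB (fun v => ψ (cl v)) hfin d = 0 := by
    intro d hd
    apply v27n_b_vanish hpos hfin dg cl hcl ψ a ha hψa d
    intro C hC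
    apply hRR C (C + a)
    · rw [map_add, ha, add_zero]
    · rw [hC]
      omega
  obtain ⟨d₁, hd₁⟩ := v27n_seq_main (v27n_rec (fun v => ψ (cl v)) hpos hfin)
    (v27n_rec (fun w => (ψ.compAddMonoidHom N) (cl' w)) hpos' hfin') (v27nS_zero _ hfin)
    (v27nS_zero _ hfin') (v27nB_zero _ hpos hfin) (v27nB_zero _ hpos' hfin') hS hn hb
  have hψ'ker : ∀ x, dg' x = 0 → (ψ.compAddMonoidHom N) x = 1 := by
    intro x hx
    rw [AddChar.compAddMonoidHom_apply]
    exact hψB _ ⟨x, hx, rfl⟩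
  have hne := v27n_b_ne_zero hpos' hfin' dg' cl' hcl' (ψ.compAddMonoidHom N) hψ'ker w₀ (d₁ + 1)
  apply hne
  apply hd₁
  have h1 := hpos' w₀
  nlinarith

end Fermat.Agent.V
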